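import Fermat.Agent.LT.T3.R.Spec
import Fermat.Agent.LT.T6.H626.ArchCut

/-!
# Row LT, tower T3, station T3.18R, leaf R.1 `AbelRealC` (helper134, OFF-MAIN): BY COMPOSITION

`abelRealC_of134 : AS.AbelCplxSmoothC → T6.H626.AbelExistC626 → R.AbelRealC`.

Both hypotheses are CLOSED leaves (T3: `abelCplxSmooth_closed`, tower T3 of helper14;
T6: `abelExistC626`, station T6.20 of helper626).  No new analysis:

* `AS.AbelCplxSmoothC` applied to `β₂(s, t) = β(2 s, 2 t)` gives a smooth bi-`U(2)`-invariant `F` on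
  `GL₂(ℂ)` with complex `N`-integral `|c₁| |c₂| β₂(log |c₁|, log |c₂|)`;
* `AbelExistC626` with the constant `1` gives `f₀` (weight `0`), `f₁` (weight `±1`) on `GL₂(ℝ)` with
  `∫_ℝ f(!![a, a x; 0, b]) dx = ∫_ℂ F(!![√a, √a w; 0, √b]) dw` for `a, b > 0`;
* two linear changes of variables (`y = a x` on `ℝ`, `z = √a w` on `ℂ`):
  `∫_ℝ f(!![a, y; 0, b]) dy = √a √b β₂(log √a, log √b) = √(a b) β(log a, log b)`.
-/

set_option autoImplicit false

open MeasureTheory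
open scoped ContDiff

noncomputable section

namespace Fermat.Agent.LT.T3.R.H134

open Fermat.Agent.LT.T3 Fermat.Agent.LT.T3.AS Fermat.Agent.LT.T3.R Fermat.Agent.LT.T6

/-- The dilation `β₂(p) = β(2 p)` of a symmetric bump is a symmetric bump. -/
theorem isSymBump_dilate134 {β : ℝ × ℝ → ℂ} (hβ : IsSymBump β) :
    IsSymBump (fun p : ℝ × ℝ => β ((2 : ℝ) • p)) := by
  obtain ⟨h1, h2, h3⟩ := hβ
  refine ⟨?_, ?_, ?_⟩
  · exact h1.comp (contDiff_const_smul (2 : ℝ))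
  · exact h2.comp_smul (two_ne_zero)
  · intro x y
    simpa [Prod.smul_mk] using h3 (2 * x) (2 * y)

/-- A smooth complex test function of tower T3 is an archimedean test function of tower T6. -/
theorem isArchTestC_of134 {F : GL (Fin 2) ℂ → ℂ} (h1 : IsCplxTest F) (h2 : IsCplxSmooth F) :
    T6.IsArchTestC F where
  cont := h1.cont
  supp := h1.supp
  smooth := by
    intro m h hh g
    refine h2 m (fun t => g * h t) ?_
    intro i j
    have e : (fun t : Fin m → ℝ => ((g * h t : GL (Fin 2) ℂ) : Matrix (Fin 2) (Fin 2) ℂ) i j)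
        = fun t => (g : Matrix (Fin 2) (Fin 2) ℂ) i 0
              * ((h t : GL (Fin 2) ℂ) : Matrix (Fin 2) (Fin 2) ℂ) 0 j
            + (g : Matrix (Fin 2) (Fin 2) ℂ) i 1
              * ((h t : GL (Fin 2) ℂ) : Matrix (Fin 2) (Fin 2) ℂ) 1 j := by
      funext t
      rw [Units.val_mul, Matrix.mul_apply, Fin.sum_univ_two]
    rw [e]
    exact (contDiff_const.mul (hh 0 j)).add (contDiff_const.mul (hh 1 j))
  left := by
    intro k g hk
    have h1' : IsUnitary2 (1 : GL (Fin 2) ℂ) := by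
      unfold IsUnitary2; simp
    have := h1.bi_inv k 1 g hk h1'
    simpa using this
  right := by
    intro k g hk
    have h1' : IsUnitary2 (1 : GL (Fin 2) ℂ) := by
      unfold IsUnitary2; simp
    have := h1.bi_inv 1 k g h1' hk
    simpa using this

/-- **The computation**: from the complex `N`-integral of `F` (bump `β(2 ·)`) and the Abel relation
with constant `1` to the real `N`-integral of `f` (bump `β`). -/
theorem hasAbelNR_of134 {F : GL (Fin 2) ℂ → ℂ} {β : ℝ × ℝ → ℂ}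
    (hF : HasAbelN F (fun p : ℝ × ℝ => β ((2 : ℝ) • p))) (f : GL (Fin 2) ℝ → ℂ)
    (hrel : ∀ a b : ℝ, 0 < a → 0 < b →
      ∀ (u : ℝ → GL (Fin 2) ℝ) (u' : ℂ → GL (Fin 2) ℂ),
        (∀ x : ℝ, ((u x : GL (Fin 2) ℝ) : Matrix (Fin 2) (Fin 2) ℝ) = !![a, a * x; 0, b]) →
        (∀ w : ℂ, ((u' w : GL (Fin 2) ℂ) : Matrix (Fin 2) (Fin 2) ℂ)
          = !![((Real.sqrt a : ℝ) : ℂ), ((Real.sqrt a : ℝ) : ℂ) * w; 0,
              ((Real.sqrt b : ℝ) : ℂ)]) →
        (∫ x : ℝ, f (u x)) = (1 : ℂ) * ∫ w : ℂ, F (u' w)) :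
    HasAbelNR f β := by
  intro c₁ c₂ h1 h2
  set a : ℝ := (c₁ : ℝ) with ha
  set b : ℝ := (c₂ : ℝ) with hb
  have hsa : 0 < Real.sqrt a := Real.sqrt_pos.mpr h1
  have hsb : 0 < Real.sqrt b := Real.sqrt_pos.mpr h2
  have hsa' : ((Real.sqrt a : ℝ) : ℂ) ≠ 0 := by exact_mod_cast hsa.ne'
  have hsb' : ((Real.sqrt b : ℝ) : ℂ) ≠ 0 := by exact_mod_cast hsb.ne'
  let sa : ℂˣ := Units.mk0 _ hsa'
  let sb : ℂˣ := Units.mk0 _ hsb'
  have key := hrel a b h1 h2 (fun x => upperGL c₁ c₂ (a * x))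
    (fun w => upperGL sa sb (((Real.sqrt a : ℝ) : ℂ) * w)) (fun x => rfl) (fun w => rfl)
  -- the real side
  have hL : (∫ x : ℝ, f (upperGL c₁ c₂ (a * x)))
      = |a⁻¹| • ∫ y : ℝ, f (upperGL c₁ c₂ y) :=
    MeasureTheory.Measure.integral_comp_mul_left (fun y : ℝ => f (upperGL c₁ c₂ y)) a
  -- the complex side
  have hR : (∫ w : ℂ, F (upperGL sa sb (((Real.sqrt a : ℝ) : ℂ) * w)))
      = |((Real.sqrt a) ^ 2)⁻¹| • ∫ z : ℂ, F (upperGL sa sb z) := by
    have := MeasureTheory.Measure.integral_comp_smul (volume : Measure ℂ)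
      (fun z : ℂ => F (upperGL sa sb z)) (Real.sqrt a)
    rw [Complex.finrank_real_complex] at this
    simpa [Complex.real_smul] using this
  have hN := hF sa sb
  have hna : ‖((sa : ℂˣ) : ℂ)‖ = Real.sqrt a := by
    show ‖((Real.sqrt a : ℝ) : ℂ)‖ = Real.sqrt a
    rw [Complex.norm_real, Real.norm_of_nonneg hsa.le]
  have hnb : ‖((sb : ℂˣ) : ℂ)‖ = Real.sqrt b := by
    show ‖((Real.sqrt b : ℝ) : ℂ)‖ = Real.sqrt b
    rw [Complex.norm_real, Real.norm_of_nonneg hsb.le]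
  have hlog : (2 : ℝ) • (Real.log (Real.sqrt a), Real.log (Real.sqrt b))
      = (Real.log a, Real.log b) := by
    rw [Real.log_sqrt h1.le, Real.log_sqrt h2.le, Prod.smul_mk]
    simp only [smul_eq_mul]
    congr 1 <;> ring
  simp only [hna, hnb, hlog] at hN
  rw [hL, hR, hN, one_mul] at key
  have hsq : Real.sqrt a ^ 2 = a := Real.sq_sqrt h1.le
  rw [hsq, abs_of_pos (inv_pos.mpr h1)] at key
  have ha0 : (a : ℝ) ≠ 0 := h1.ne'
  have key2 : (∫ y : ℝ, f (upperGL c₁ c₂ y))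
      = ((Real.sqrt a * Real.sqrt b : ℝ) : ℂ) * β (Real.log a, Real.log b) :=
    smul_right_injective ℂ (inv_ne_zero ha0) key
  rw [key2, Real.sqrt_mul h1.le]

/-- **R.1 `AbelRealC` from the two closed leaves** `AS.AbelCplxSmoothC` (tower T3) and
`T6.H626.AbelExistC626` (station T6.20). -/
theorem abelRealC_of134 (hC : AbelCplxSmoothC) (hE : H626.AbelExistC626) : AbelRealC := by
  intro n hn β hβ
  obtain ⟨μc, -, κc, -, hF⟩ := hC
  obtain ⟨F, hF1, hF2, hF3, -⟩ := hF (fun p : ℝ × ℝ => β ((2 : ℝ) • p)) (isSymBump_dilate134 hβ)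
  have hφ : T6.IsArchTestC F := isArchTestC_of134 hF1 hF2
  rcases hn with rfl | rfl | rfl
  · obtain ⟨f₀, f₁, hf₀, -, hrel⟩ := hE 1 1 (Or.inl rfl) F hφ
    exact ⟨f₀, hf₀, hasAbelNR_of134 hF3 f₀ fun a b ha hb u u' hu hu' =>
      (hrel a b ha hb u u' hu hu').1⟩
  · obtain ⟨f₀, f₁, -, hf₁, hrel⟩ := hE 1 1 (Or.inl rfl) F hφ
    exact ⟨f₁, hf₁, hasAbelNR_of134 hF3 f₁ fun a b ha hb u u' hu hu' =>
      (hrel a b ha hb u u' hu hu').2⟩
  · obtain ⟨f₀, f₁, -, hf₁, hrel⟩ := hE 1 (-1) (Or.inr rfl) F hφ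
    exact ⟨f₁, hf₁, hasAbelNR_of134 hF3 f₁ fun a b ha hb u u' hu hu' =>
      (hrel a b ha hb u u' hu hu').2⟩

end Fermat.Agent.LT.T3.R.H134

end
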